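import Mathlib
import Fermat.Prelude.Def_FLTPrelim_Ramification
import Fermat.Agent.MUL.Orig.Lib.Frobenius.Exists
import Fermat.Agent.MUL.Orig.Lib.Minkowski.InertiaLift
import Fermat.Agent.MUL.Orig.S05.H5.Sing

section MergeWrap_Lib_Minkowski_Bridge -- from Lib/Minkowski/Bridge.lean

/-!
# Minkowski bridge

A homomorphism `χ` from `Gal(ℚ̄/ℚ)` to any group, with open kernel, which is trivial on one
inertia group above every prime, is trivial.  The proof combines Minkowski's theorem (every
number field `≠ ℚ` is ramified somewhere, from Mathlib) with the fact that inertia groups of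
`ℚ̄/ℚ` surject onto inertia groups of finite Galois subextensions (`InertiaLift`, stated here as
a hypothesis and proved in `InertiaLift.lean`).
-/

set_option autoImplicit false

open NumberField Fermat.Agent.FrobExists

namespace Fermat.Agent.Minkowski

/-- A ramified prime of a Galois number field has a nontrivial inertia element. -/
theorem exists_inertia_ne_one {K : Type*} [Field K] [NumberField K] [IsGalois ℚ K]
    (P : Ideal (𝓞 K)) [P.IsPrime] (hP0 : P ≠ ⊥)
    (hram : ¬ Algebra.IsUnramifiedAt ℤ P) :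
    ∃ s : K ≃ₐ[ℚ] K, s ≠ 1 ∧ ∀ x : 𝓞 K, ∃ y ∈ P, s (x : K) - (x : K) = (y : K) := by
  let : MulSemiringAction Gal(K/ℚ) (𝓞 K) := IsIntegralClosure.MulSemiringAction ℤ ℚ K (𝓞 K)
  have hG := IsGaloisGroup.of_isFractionRing Gal(K/ℚ) ℤ (𝓞 K) ℚ K
  have hprime : (P.under ℤ).IsPrime := inferInstance
  have hlies : P.LiesOver (P.under ℤ) := ⟨rfl⟩
  have hne : P.under ℤ ≠ ⊥ := by
    intro h
    exact hP0 (Ideal.eq_bot_of_comap_eq_bot h)
  have hmax : (P.under ℤ).IsMaximal := hprime.isMaximal hne
  have hcard : Nat.card (P.inertia Gal(K/ℚ)) ≠ 1 := by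
    rw [Ideal.card_inertia_eq_ramificationIdxIn (P.under ℤ) P,
      Ideal.ramificationIdxIn_eq_ramificationIdx (P.under ℤ) P Gal(K/ℚ)]
    intro h
    exact hram (Ideal.ramificationIdx_eq_one_iff.mp h)
  have hex : ∃ s ∈ P.inertia Gal(K/ℚ), s ≠ 1 := by
    by_contra hcon
    push Not at hcon
    apply hcard
    rw [Subgroup.card_eq_one]
    exact (Subgroup.eq_bot_iff_forall _).mpr hcon
  obtain ⟨s, hs, hs1⟩ := hex
  refine ⟨s, hs1, fun x => ⟨s • x - x, hs x, ?_⟩⟩
  have := algebraMap_galRestrict_apply ℤ s x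
  simp only [map_sub]
  rw [sub_left_inj]
  exact this.symm

/-- **Inertia lifting** (interface): an element `s` of the Galois group of a finite Galois
subextension `L/ℚ` of `ℚ̄/ℚ` acting trivially on the algebraic integers of `L` modulo the maximal
ideal of the valuation subring `A` of `ℚ̄` is the restriction of an element of the inertia
subgroup of `A`. -/
def InertiaLift : Prop :=
  ∀ (A : ValuationSubring (AlgebraicClosure ℚ)) (q : ℕ) (_ : q.Prime) (_ : A.LiesOverPrime q)
    (L : IntermediateField ℚ (AlgebraicClosure ℚ)) [FiniteDimensional ℚ L] [IsGalois ℚ L]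
    (s : L ≃ₐ[ℚ] L),
    (∀ x : L, IsIntegral ℤ x →
      ((s x : L) : AlgebraicClosure ℚ) - (x : AlgebraicClosure ℚ) ∈ A.nonunits) →
    ∃ σ ∈ A.inertiaSubgroupIn ℚ, AlgEquiv.restrictNormalHom L σ = s

/-- **Minkowski bridge**, assuming inertia lifting. -/
theorem minkowski_bridge_of_inertiaLift (hlift : InertiaLift) {H : Type*} [Group H]
    (χ : (AlgebraicClosure ℚ ≃ₐ[ℚ] AlgebraicClosure ℚ) →* H)
    (hopen : IsOpen (χ.ker : Set (AlgebraicClosure ℚ ≃ₐ[ℚ] AlgebraicClosure ℚ)))
    (hunr : ∀ q : ℕ, q.Prime → ∃ A : ValuationSubring (AlgebraicClosure ℚ),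
      A.LiesOverPrime q ∧ ∀ σ ∈ A.inertiaSubgroupIn ℚ, χ σ = 1) :
    ∀ σ, χ σ = 1 := by
  by_contra hcon
  push Not at hcon
  obtain ⟨σ₀, hσ₀⟩ := hcon
  have hGal : IsGalois ℚ Qb := isGalois_Qb
  let N : ClosedSubgroup GQ :=
    { toSubgroup := χ.ker
      isClosed' := Subgroup.isClosed_of_isOpen _ hopen }
  let L : IntermediateField ℚ Qb := IntermediateField.fixedField χ.ker
  have hfix : L.fixingSubgroup = χ.ker := InfiniteGalois.fixingSubgroup_fixedField N
  have hfin : FiniteDimensional ℚ L := by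
    rw [← InfiniteGalois.isOpen_iff_finite, hfix]
    exact hopen
  have hgal : IsGalois ℚ L := by
    have hnormal : L.fixingSubgroup.Normal := by
      rw [hfix]
      infer_instance
    exact (InfiniteGalois.normal_iff_isGalois L).mp hnormal
  have hnf : NumberField L := { to_charZero := inferInstance, to_finiteDimensional := hfin }
  have hrank : 1 < Module.finrank ℚ L := by
    by_contra h
    have hpos : 0 < Module.finrank ℚ L := Module.finrank_pos
    have h1 : Module.finrank ℚ L = 1 := by omega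
    rw [IntermediateField.finrank_eq_one_iff] at h1
    have h2 : σ₀ ∈ L.fixingSubgroup := by
      rw [h1]
      intro x
      obtain ⟨r, hr⟩ := IntermediateField.mem_bot.mp x.2
      rw [← hr]
      exact σ₀.commutes r
    rw [hfix] at h2
    exact hσ₀ h2
  obtain ⟨q, hq, hqram⟩ :=
    NumberField.exists_not_isUnramifiedAt_int_of_isGalois (K := L) (𝒪 := 𝓞 L) hrank
  obtain ⟨A, hA, hAχ⟩ := hunr q hq
  -- the prime of `𝓞 L` below `A`
  let φ : 𝓞 L →+* A :=
    { toFun := fun x => ⟨((x : L) : Qb), mem_valuationSubring_of_isIntegral A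
        (x.isIntegral_coe.map (IsScalarTower.toAlgHom ℤ L Qb))⟩
      map_one' := rfl
      map_mul' := fun _ _ => rfl
      map_zero' := rfl
      map_add' := fun _ _ => rfl }
  let P : Ideal (𝓞 L) := Ideal.comap φ (IsLocalRing.maximalIdeal A)
  have hPprime : P.IsPrime := Ideal.comap_isPrime _ _
  have hmemP : ∀ y : 𝓞 L, y ∈ P ↔ (((y : L) : Qb)) ∈ A.nonunits := by
    intro y
    rw [Ideal.mem_comap, ← ValuationSubring.coe_mem_nonunits_iff]
    rfl
  have hqP : ((q : ℕ) : 𝓞 L) ∈ P := by
    rw [hmemP]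
    have : (((q : 𝓞 L) : L) : Qb) = (q : Qb) := by simp
    rw [this]
    exact hA
  have hP0 : P ≠ ⊥ := by
    intro h
    rw [h, Ideal.mem_bot] at hqP
    exact hq.ne_zero (by exact_mod_cast hqP)
  obtain ⟨s, hs1, hs⟩ := exists_inertia_ne_one P hP0 (hqram P hPprime hqP)
  obtain ⟨σ, hσI, hσs⟩ := hlift A q hq hA L s (by
    intro x hx
    obtain ⟨y, hyP, hy⟩ := hs ⟨x, hx⟩
    have hy' : ((s x : L) : Qb) - (x : Qb) = (((y : L)) : Qb) :=
      congrArg (fun z : L => (z : Qb)) hy
    rw [hy']
    exact (hmemP y).mp hyP)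
  have hker : σ ∈ χ.ker := hAχ σ hσI
  rw [← hfix, ← IntermediateField.restrictNormalHom_ker, MonoidHom.mem_ker] at hker
  exact hs1 (hσs ▸ hker)

end Fermat.Agent.Minkowski
end MergeWrap_Lib_Minkowski_Bridge

section MergeWrap_Lib_Minkowski_Final -- from Lib/Minkowski/Final.lean

set_option autoImplicit false

/-!
# Minkowski bridge (final, unconditional form)

A homomorphism `χ` from `Gal(ℚ̄/ℚ)` to any group with open kernel which is trivial on (one)
inertia group above every rational prime is trivial.  (Minkowski: `ℚ` has no nontrivial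
everywhere-unramified finite extension.)
-/

namespace Fermat.Agent.Minkowski

/-- Inertia lifting holds (helper41's `exists_mem_inertiaSubgroupIn_restrict`). -/
theorem inertiaLift_holds : InertiaLift :=
  fun A q hq hA L _ _ s hs => exists_mem_inertiaSubgroupIn_restrict A q hq hA L s hs

/-- **Minkowski bridge.** A homomorphism out of `Gal(ℚ̄/ℚ)` with open kernel, trivial on an
inertia subgroup above every prime `q`, is trivial. -/
theorem minkowski_bridge {H : Type*} [Group H]
    (χ : (AlgebraicClosure ℚ ≃ₐ[ℚ] AlgebraicClosure ℚ) →* H)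
    (hopen : IsOpen (χ.ker : Set (AlgebraicClosure ℚ ≃ₐ[ℚ] AlgebraicClosure ℚ)))
    (hunr : ∀ q : ℕ, q.Prime → ∃ A : ValuationSubring (AlgebraicClosure ℚ),
      A.LiesOverPrime q ∧ ∀ σ ∈ A.inertiaSubgroupIn ℚ, χ σ = 1) :
    ∀ σ, χ σ = 1 :=
  minkowski_bridge_of_inertiaLift inertiaLift_holds χ hopen hunr

/-- Variant: it suffices that `χ` is trivial on *every* inertia subgroup above each prime
(given as a hypothesis quantified over all valuation subrings lying over `q`). -/
theorem minkowski_bridge_forall {H : Type*} [Group H]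
    (χ : (AlgebraicClosure ℚ ≃ₐ[ℚ] AlgebraicClosure ℚ) →* H)
    (hopen : IsOpen (χ.ker : Set (AlgebraicClosure ℚ ≃ₐ[ℚ] AlgebraicClosure ℚ)))
    (hex : ∀ q : ℕ, q.Prime → ∃ A : ValuationSubring (AlgebraicClosure ℚ), A.LiesOverPrime q)
    (hunr : ∀ q : ℕ, q.Prime → ∀ A : ValuationSubring (AlgebraicClosure ℚ),
      A.LiesOverPrime q → ∀ σ ∈ A.inertiaSubgroupIn ℚ, χ σ = 1) :
    ∀ σ, χ σ = 1 :=
  minkowski_bridge χ hopen fun q hq => by
    obtain ⟨A, hA⟩ := hex q hq
    exact ⟨A, hA, hunr q hq A hA⟩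

end Fermat.Agent.Minkowski
end MergeWrap_Lib_Minkowski_Final
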